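import Fermat.Agent.S59.TW.Aut.Spec
import Fermat.Agent.S59.TW.Aut.H511.Idem

/-!
# S59 / cell TW / AUT Layer 3: operators outside the maximal ideal are bijective on `V` (helper31)

Shared glue for the leaves MOD0, MODQ, FREE, CTRL of `TW/Aut/Spec.lean`.

* `bijective_add_smul_one_h31` (Mathlib only): `V` a finite module over a local ring `R`,
  `g ∈ End_R V` with `g^m V ⊆ 𝔪 V`, `w ∈ Rˣ`  ⟹  `g + w` is bijective.
* `mem_smul_top_of_proj_h31` (Mathlib only): `V = e X` for a projector `e`  ⟹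
  `V ∩ 𝔪 X = 𝔪 V`.
* `IsLocPart.TK_sub_bij`, `IsLocPart.UK_sub_bij`: if `V` is the localisation (`IsLocPart`),
  `(ℓ, c) ∈ Tset` and `c - u ∈ 𝒪ˣ`, then `T_ℓ - u` is bijective on `V`
  (in the shape of the hypotheses of `MFree.FreeStatement`); same for `U_q`.
* `IsLocPart.TK_mem`, `IsLocPart.UK_mem`, `IsLocPart.diamondU_mem`: `V` is stable.
-/

set_option autoImplicit false

open Polynomial IsLocalRing CongruenceSubgroup
open scoped MatrixGroups

namespace Fermat.Agent.S59.TW.Aut.H31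

open Fermat.Agent.S59.TW.H653 Fermat.Agent.S59.TW.Aut

section Abstract

variable {R : Type*} [CommRing R] [IsLocalRing R] {V : Type*} [AddCommGroup V] [Module R V]

/-- An endomorphism congruent to `1` modulo `𝔪` of a finite module over a local ring is
surjective (Nakayama). -/
theorem surjective_one_sub_h31 [Module.Finite R V] (n : Module.End R V)
    (hn : ∀ x, n x ∈ maximalIdeal R • (⊤ : Submodule R V)) :
    Function.Surjective (1 - n : Module.End R V) := by
  rw [← LinearMap.range_eq_top]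
  refine top_le_iff.mp ?_
  refine Submodule.le_of_le_smul_of_le_jacobson_bot (Module.Finite.fg_top)
    (IsLocalRing.maximalIdeal_le_jacobson ⊥) ?_
  intro x _
  have h1 : x = (1 - n : Module.End R V) x + n x := by
    simp
  rw [h1]
  exact Submodule.add_mem_sup ⟨x, rfl⟩ (hn x)

/-- `g^m V ⊆ 𝔪 V`, `w` a unit  ⟹  `g + w` is bijective on the finite module `V`. -/
theorem bijective_add_smul_one_h31 [Module.Finite R V] (g : Module.End R V) {w : R}
    (hw : IsUnit w) (m : ℕ)
    (h : ∀ x, (g ^ m) x ∈ maximalIdeal R • (⊤ : Submodule R V)) :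
    Function.Bijective (g + w • (1 : Module.End R V)) := by
  obtain ⟨w', hw'⟩ := hw.exists_right_inv
  set hh : Module.End R V := -(w' • g) with hhdef
  set S : Module.End R V := ∑ i ∈ Finset.range m, hh ^ i with hS
  have h1 : (1 - hh) * S = 1 - hh ^ m := mul_neg_geom_sum hh m
  have h2 : g + w • (1 : Module.End R V) = w • (1 - hh) := by
    rw [hhdef, sub_neg_eq_add, smul_add, smul_smul, hw', one_smul, add_comm]
  have h3 : ∀ x, (hh ^ m) x ∈ maximalIdeal R • (⊤ : Submodule R V) := by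
    intro x
    have h4 : hh ^ m = ((-w') ^ m) • g ^ m := by
      rw [hhdef, ← neg_smul, _root_.smul_pow]
    rw [h4]
    exact Submodule.smul_mem _ _ (h x)
  have h5 : Function.Surjective (((1 - hh) * S : Module.End R V) : V → V) := by
    rw [h1]
    exact surjective_one_sub_h31 (hh ^ m) h3
  have h6 : Function.Surjective ((1 - hh : Module.End R V) : V → V) := by
    intro y
    obtain ⟨x, hx⟩ := h5 y
    exact ⟨S x, hx⟩
  have h7 : Function.Surjective (g + w • (1 : Module.End R V)) := by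
    intro y
    obtain ⟨x, hx⟩ := h6 (w' • y)
    refine ⟨x, ?_⟩
    rw [h2, LinearMap.smul_apply, hx, smul_smul, hw', one_smul]
  exact ⟨OrzechProperty.injective_of_surjective_endomorphism _ h7, h7⟩

variable {X : Type*} [AddCommGroup X] [Module R X]

/-- If `V = e X` for a projector `e`, then `V ∩ 𝔪 X = 𝔪 V`. -/
theorem mem_smul_top_of_proj_h31 (W : Submodule R X) (e : X →ₗ[R] X) (he : ∀ x, e x ∈ W)
    (heW : ∀ x ∈ W, e x = x) (v : W)
    (hv : (v : X) ∈ maximalIdeal R • (⊤ : Submodule R X)) :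
    v ∈ maximalIdeal R • (⊤ : Submodule R W) := by
  set e' : X →ₗ[R] W := e.codRestrict W he with he'
  have h1 : e' (v : X) = v := Subtype.ext (heW _ v.2)
  have h2 : e' (v : X) ∈ Submodule.map e' (maximalIdeal R • (⊤ : Submodule R X)) :=
    Submodule.mem_map_of_mem hv
  rw [Submodule.map_smul''] at h2
  rw [h1] at h2
  exact Submodule.smul_mono le_rfl le_top h2

/-- Abstract form of the bijectivity: `W = e X` for a projector `e`, `f ∈ End_R X` stabilising
`W`, `(f - c)^m W ⊆ 𝔪 X`, `c - u` a unit  ⟹  `f - u` is bijective on `W`. -/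
theorem sub_bij_of_proj_h31 (W : Submodule R X) (hfin : Module.Finite R W) (e : X →ₗ[R] X)
    (he : ∀ x, e x ∈ W) (heW : ∀ x ∈ W, e x = x)
    (f : Module.End R X) (hfW : ∀ x ∈ W, f x ∈ W) {c u : R}
    (hu : IsUnit (c - u)) (m : ℕ)
    (hnil : ∀ x ∈ W, (fun y : X => f y - c • y)^[m] x ∈
      maximalIdeal R • (⊤ : Submodule R X)) :
    (∀ y ∈ W, ∃ x ∈ W, f x - u • x = y) ∧ (∀ x ∈ W, f x - u • x = 0 → x = 0) := by
  -- the restriction of `f - c` to `W`
  set fW : Module.End R W := f.restrict hfW with hfWdef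
  set g : Module.End R W := fW - c • (1 : Module.End R W) with hg
  have hgapp : ∀ w : W, ((g w : W) : X) = f (w : X) - c • (w : X) := by
    intro w
    rw [hg, LinearMap.sub_apply, LinearMap.smul_apply, Module.End.one_apply,
      Submodule.coe_sub, Submodule.coe_smul, hfWdef, LinearMap.coe_restrict_apply]
  have hgpow : ∀ (n : ℕ) (v : W), (((g ^ n) v : W) : X) =
      (fun y : X => f y - c • y)^[n] (v : X) := by
    intro n
    induction n with
    | zero =>
      intro v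
      rw [pow_zero, Module.End.one_apply, Function.iterate_zero, id_eq]
    | succ n ih =>
      intro v
      rw [pow_succ', Module.End.mul_apply, Function.iterate_succ', Function.comp_apply, ← ih v,
        hgapp]
  have hgm : ∀ v : W, (g ^ m) v ∈ maximalIdeal R • (⊤ : Submodule R W) := by
    intro v
    refine mem_smul_top_of_proj_h31 W e he heW _ ?_
    rw [hgpow m v]
    exact hnil _ v.2
  have hbij := bijective_add_smul_one_h31 g hu m hgm
  have hform : ∀ v : W, (((g + (c - u) • (1 : Module.End R W)) v : W) : X) =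
      f (v : X) - u • (v : X) := by
    intro v
    rw [LinearMap.add_apply, LinearMap.smul_apply, Module.End.one_apply, Submodule.coe_add,
      Submodule.coe_smul, hgapp, sub_smul]
    abel
  refine ⟨fun y hy => ?_, fun x hx h0 => ?_⟩
  · obtain ⟨v, hv⟩ := hbij.2 ⟨y, hy⟩
    refine ⟨v, v.2, ?_⟩
    rw [← hform v, hv]
  · have h1 : (g + (c - u) • (1 : Module.End R W)) ⟨x, hx⟩ = 0 := by
      apply Subtype.ext
      rw [hform]
      exact h0
    have h2 := hbij.1 (h1.trans (map_zero _).symm)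
    exact congrArg Subtype.val h2

end Abstract

section Concrete

variable {M : ℕ} {K : Subgroup SL(2, ℤ)} {hK : IsMid M K}
  {𝒪 : Type} [CommRing 𝒪] [IsDomain 𝒪] [IsDiscreteValuationRing 𝒪]
  {Tset Uset : Set (ℕ × 𝒪)} {V : Submodule 𝒪 (Additive K →+ 𝒪)}

/-- `V` is stable under `T_ℓ`. -/
theorem locPart_TK_mem_h31 (hV : IsLocPart hK Tset Uset V) {ℓ : ℕ} [Fact ℓ.Prime]
    (hℓ : ¬ ℓ ∣ M) {x : Additive K →+ 𝒪} (hx : x ∈ V) : TK M K ℓ x ∈ V := by
  obtain ⟨e, -, heV, hVe, hT, -, -, -⟩ := hV.exists_proj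
  rw [← hVe x hx, ← hT ℓ hℓ x]
  exact heV _

/-- `V` is stable under `U_q`. -/
theorem locPart_UK_mem_h31 (hV : IsLocPart hK Tset Uset V) {q : ℕ} [Fact q.Prime]
    (hq : q ∣ M) {x : Additive K →+ 𝒪} (hx : x ∈ V) : UK K q x ∈ V := by
  obtain ⟨e, -, heV, hVe, -, hU, -, -⟩ := hV.exists_proj
  rw [← hVe x hx, ← hU q hq x]
  exact heV _

/-- `V` is stable under the diamond operators. -/
theorem locPart_diamondU_mem_h31 (hV : IsLocPart hK Tset Uset V) (u : (ZMod M)ˣ)
    {x : Additive K →+ 𝒪} (hx : x ∈ V) : diamondU hK u x ∈ V := by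
  obtain ⟨e, -, heV, hVe, -, -, hD, -⟩ := hV.exists_proj
  rw [← hVe x hx, ← hD u x]
  exact heV _

/-- Abstract form of the bijectivity: `f` an `𝒪`-linear endomorphism of `X_K(𝒪)` commuting with
the projector of `V`, `(f - c)^m V ⊆ 𝔪 X`, `c - u` a unit  ⟹  `f - u` is bijective on `V`. -/
theorem locPart_sub_bij_h31 [NeZero M] (hV : IsLocPart hK Tset Uset V)
    (f : Module.End 𝒪 (Additive K →+ 𝒪)) (hfV : ∀ x ∈ V, f x ∈ V) {c u : 𝒪}
    (hu : IsUnit (c - u)) (m : ℕ)
    (hnil : ∀ x ∈ V, (fun y => f y - c • y)^[m] x ∈ mX K 𝒪) :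
    (∀ y ∈ V, ∃ x ∈ V, f x - u • x = y) ∧ (∀ x ∈ V, f x - u • x = 0 → x = 0) := by
  have : K.FiniteIndex := Subgroup.finiteIndex_of_le hK.ge
  obtain ⟨hfin, -⟩ := Fermat.Agent.S59.MFree.H761.finite_free_submodule (O := 𝒪) K V
  obtain ⟨e, -, heV, hVe, -, -, -, -⟩ := hV.exists_proj
  exact sub_bij_of_proj_h31 V hfin e heV hVe f hfV hu m hnil

/-- **`T_ℓ - u` is bijective on `V`** if `(ℓ, c) ∈ Tset` and `c - u` is a unit (in the shape of
the hypotheses of `MFree.FreeStatement`). -/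
theorem locPart_TK_sub_bij_h31 [NeZero M] (hV : IsLocPart hK Tset Uset V) {ℓ : ℕ}
    [Fact ℓ.Prime] (hℓ : ¬ ℓ ∣ M) {c u : 𝒪} (hmem : (ℓ, c) ∈ Tset) (hu : IsUnit (c - u)) :
    (∀ y ∈ V, ∃ x ∈ V, TK M K ℓ x - u • x = y) ∧
      (∀ x ∈ V, TK M K ℓ x - u • x = 0 → x = 0) := by
  obtain ⟨m, hm⟩ := hV.nilp_T ℓ c hmem
  exact locPart_sub_bij_h31 hV (Fermat.Agent.S59.TW.Aut.H511.TKl hK 𝒪 ℓ hℓ)
    (fun x hx => locPart_TK_mem_h31 hV hℓ hx) hu m hm

/-- **`U_q - u` is bijective on `V`** if `(q, α) ∈ Uset` and `α - u` is a unit. -/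
theorem locPart_UK_sub_bij_h31 [NeZero M] (hV : IsLocPart hK Tset Uset V) {q : ℕ}
    [Fact q.Prime] (hq : q ∣ M) {α u : 𝒪} (hmem : (q, α) ∈ Uset) (hu : IsUnit (α - u)) :
    (∀ y ∈ V, ∃ x ∈ V, UK K q x - u • x = y) ∧
      (∀ x ∈ V, UK K q x - u • x = 0 → x = 0) := by
  obtain ⟨m, hm⟩ := hV.nilp_U q α hmem
  exact locPart_sub_bij_h31 hV (Fermat.Agent.S59.TW.Aut.H511.UKl hK 𝒪 q hq)
    (fun x hx => locPart_UK_mem_h31 hV hq hx) hu m hm

end Concrete

end Fermat.Agent.S59.TW.Aut.H31
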