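import Fermat.Agent.S59.TW.Aut.Spec
import Fermat.Agent.S59.H424.NEPrimeK
import Fermat.Agent.S59.H686.ResFrobDatum

/-!
# S59 / cell TW / AUT Layer 3: the auxiliary non-Eisenstein prime (helper31)

Shared glue for the leaves MOD0, MODQ, FREE, CTRL of `TW/Aut/Spec.lean`.

* `resFrobCond_of_pkg` : the residual Hecke character of a package is the Frobenius character
  of `ρ̄` (`H686.resFrobOfDatum` applied to the package).
* `exists_nonEis_mem_TsetOf` : for every Hecke package `P` (any `Σ`), every modulus `m > 0` and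
  every finite set `S'` there is a pair `(ℓ, c) ∈ TsetOf P` with `ℓ ∉ S'`, `ℓ ≡ 1 mod m`,
  `ℓ ≡ 1 mod p` and `c - (ℓ + 1)` a UNIT of `𝒪`  (i.e. `θ(T_ℓ) ≠ ℓ + 1`).
  Proof: `resFrobCond_of_pkg` and `H424.nePrimeK_h424` (Chebotarev + absolute irreducibility).
* `exists_nonEis_prime_of_pkg` : the same without the lift `c` (`θ(T_ℓ) ≠ ℓ + 1` in `k`).
-/

set_option autoImplicit false

open Polynomial IsLocalRing CongruenceSubgroup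
open scoped MatrixGroups

namespace Fermat.Agent.S59.TW.Aut.H31

open Fermat.Agent.S59.Arch Fermat.Agent.S59.TW.H959 Fermat.Agent.S59.TW.H653
open Fermat.Agent.S59.TW.Aut

section

variable {p : ℕ}
  {𝒪 : Type} [CommRing 𝒪] [IsDomain 𝒪] [IsDiscreteValuationRing 𝒪]
  [IsAdicComplete (maximalIdeal 𝒪) 𝒪]
  {ρbar : ResidualGaloisRep (ResidueField 𝒪)} {t : PType} {Smin : Finset ℕ}

/-- The residual Hecke character of a package is the Frobenius character of `ρ̄`. -/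
theorem resFrobCond_of_pkg {Sig : Finset ℕ} [NeZero (wilesLevel p t Smin Sig)]
    (P : HeckePkg p 𝒪 ρbar t Smin Sig) : G4.ResFrobCond ρbar P.θ :=
  Fermat.Agent.S59.H686.resFrobOfDatum (wilesLevel p t Smin Sig) (↑Sig : Set ℕ) 𝒪 ρbar P.θ P.T
    P.H P.hres

/-- The residue field of `𝒪` has characteristic `p`. -/
theorem charP_residueField_h31 [Fact p.Prime] (hp𝒪 : (p : 𝒪) ∈ maximalIdeal 𝒪) :
    CharP (ResidueField 𝒪) p := by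
  have h0 : ((p : ℕ) : ResidueField 𝒪) = 0 := by
    have h1 : residue 𝒪 (p : 𝒪) = 0 := (residue_eq_zero_iff _).mpr hp𝒪
    simpa using h1
  exact (CharP.charP_iff_prime_eq_zero (Fact.out : p.Prime)).mpr h0

/-- **The auxiliary non-Eisenstein prime**, residual form: there is a good prime `ℓ` of the
package, `ℓ ∉ S'`, `ℓ ≡ 1 mod m`, `ℓ ≡ 1 mod p`, with `θ(T_ℓ) ≠ ℓ + 1`. -/
theorem exists_nonEis_prime_of_pkg [Fact p.Prime] [Finite (ResidueField 𝒪)]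
    (h : ResidualHyp p 𝒪 ρbar Smin) {Sig : Finset ℕ}
    [NeZero (wilesLevel p t Smin Sig)] (P : HeckePkg p 𝒪 ρbar t Smin Sig)
    (m : ℕ) (hm : 0 < m) (S' : Finset ℕ) :
    ∃ (ℓ : ℕ) (hℓ : ℓ.Prime) (hℓN : ¬ ℓ ∣ wilesLevel p t Smin Sig)
      (hℓS : ℓ ∉ (↑Sig : Set ℕ)), ℓ ∉ S' ∧ ℓ ≡ 1 [MOD m] ∧ ℓ ≡ 1 [MOD p] ∧
        P.θ (CuspForm.heckeAlgebra.T hℓ hℓN hℓS) ≠ (ℓ : ResidueField 𝒪) + 1 := by
  classical
  have hp : p.Prime := Fact.out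
  have : CharP (ResidueField 𝒪) p := charP_residueField_h31 h.hp𝒪
  set N := wilesLevel p t Smin Sig with hN
  have hN0 : N ≠ 0 := NeZero.ne N
  -- the exceptional set
  set S : Finset ℕ := insert p (Sig ∪ N.primeFactors) with hS
  -- the Frobenius traces
  let a : ℕ → ResidueField 𝒪 := fun ℓ =>
    if hh : ℓ.Prime ∧ ¬ ℓ ∣ N ∧ ℓ ∉ (↑Sig : Set ℕ) then
      P.θ (CuspForm.heckeAlgebra.T hh.1 hh.2.1 hh.2.2) else 0
  have hgood : ∀ ℓ : ℕ, ℓ.Prime → ℓ ∉ S → ℓ.Prime ∧ ¬ ℓ ∣ N ∧ ℓ ∉ (↑Sig : Set ℕ) := by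
    intro ℓ hℓ hℓS
    rw [hS, Finset.mem_insert, Finset.mem_union, not_or, not_or] at hℓS
    refine ⟨hℓ, fun hdvd => hℓS.2.2 (Nat.mem_primeFactors.mpr ⟨hℓ, hdvd, hN0⟩), ?_⟩
    simpa using hℓS.2.1
  have ha : ∀ (l : ℕ), l.Prime → l ∉ S →
      ∀ B : ValuationSubring Fermat.Agent.S31.Qb, B.LiesOverPrime l →
        ∀ σ : Fermat.Agent.S31.GQ, B.IsFrobeniusAt σ l →
          LinearMap.charpoly (ρbar.ρ σ) = X ^ 2 - C (a l) * X + C ((l : ResidueField 𝒪)) := by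
    intro l hl hlS B hB σ hσ
    have hg := hgood l hl hlS
    have h1 := resFrobCond_of_pkg P l hg.1 hg.2.1 hg.2.2 B hB σ hσ
    have h2 : a l = P.θ (CuspForm.heckeAlgebra.T hg.1 hg.2.1 hg.2.2) := dif_pos hg
    rw [h2]
    exact h1
  -- a prime `q ≠ p`
  obtain ⟨q, hq, hqp⟩ : ∃ q : ℕ, q.Prime ∧ q ≠ p := by
    by_cases h3 : p = 3
    · exact ⟨2, Nat.prime_two, by omega⟩
    · exact ⟨3, Nat.prime_three, fun h' => h3 h'.symm⟩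
  obtain ⟨ℓ, hℓ, hℓS, hℓS', hℓm, hℓp, hne, -⟩ :=
    Fermat.Agent.S59.H424.nePrimeK_h424 p h.hp2 (ResidueField 𝒪) ρbar h.habs h.hsplit S
      (Finset.mem_insert_self _ _) a ha q hq hqp m hm S'
  have hg := hgood ℓ hℓ hℓS
  refine ⟨ℓ, hg.1, hg.2.1, hg.2.2, hℓS', hℓm, hℓp, ?_⟩
  have h2 : a ℓ = P.θ (CuspForm.heckeAlgebra.T hg.1 hg.2.1 hg.2.2) := dif_pos hg
  rw [← h2]
  exact hne

/-- **The auxiliary non-Eisenstein prime** in the vocabulary of `TW/Aut/Spec.lean`: a pair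
`(ℓ, c) ∈ TsetOf P` with `ℓ ∉ S'`, `ℓ ≡ 1 mod m`, `ℓ ≡ 1 mod p` and `c - (ℓ + 1) ∈ 𝒪ˣ`. -/
theorem exists_nonEis_mem_TsetOf [Fact p.Prime] [Finite (ResidueField 𝒪)]
    (h : ResidualHyp p 𝒪 ρbar Smin) {Sig : Finset ℕ}
    [NeZero (wilesLevel p t Smin Sig)] (P : HeckePkg p 𝒪 ρbar t Smin Sig)
    (m : ℕ) (hm : 0 < m) (S' : Finset ℕ) :
    ∃ (ℓ : ℕ) (c : 𝒪), (ℓ, c) ∈ TsetOf P ∧ ℓ.Prime ∧ ℓ ∉ S' ∧ ℓ ≡ 1 [MOD m] ∧ ℓ ≡ 1 [MOD p] ∧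
      IsUnit (c - ((ℓ : 𝒪) + 1)) := by
  obtain ⟨ℓ, hℓ, hℓN, hℓS, hℓS', hℓm, hℓp, hne⟩ := exists_nonEis_prime_of_pkg h P m hm S'
  obtain ⟨c, hc⟩ := residue_surjective (P.θ (CuspForm.heckeAlgebra.T hℓ hℓN hℓS))
  refine ⟨ℓ, c, ⟨hℓ, hℓN, hℓS, hc⟩, hℓ, hℓS', hℓm, hℓp, ?_⟩
  by_contra hu
  have h1 : c - ((ℓ : 𝒪) + 1) ∈ maximalIdeal 𝒪 := (mem_maximalIdeal _).mpr hu
  have h2 : residue 𝒪 (c - ((ℓ : 𝒪) + 1)) = 0 := (residue_eq_zero_iff _).mpr h1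
  rw [map_sub, map_add, map_one, map_natCast, hc, sub_eq_zero] at h2
  exact hne h2

end

end Fermat.Agent.S59.TW.Aut.H31
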