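import Fermat.Agent.S59.TW.Aut.H31.NonEis
import Fermat.Agent.S59.TW.Aut.H31.LocBij

/-!
# S59 / cell TW / AUT Layer 3: the auxiliary prime, one-stop form (helper31)

`exists_auxPrime_h31` : `V` the localisation (`IsLocPart`) of `X_K(𝒪)`, `Γ₁(M) ≤ K ≤ Γ₀(M)`, at
an eigen-system containing the one of a Hecke package `P` (`TsetOf P ⊆ Tset`).  Then for every
`m > 0` and every finite set `S'` there is a prime `ℓ ∉ S'`, `ℓ ≡ 1 mod m`, `ℓ ≡ 1 mod M`,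
`ℓ ≡ 1 mod p`, `ℓ ∤ M`, good for `P`, such that `T_ℓ - (ℓ + 1)` is BIJECTIVE on `V`
(the hypothesis of `MFree.FreeStatement`; also what kills the boundary/Eisenstein classes).

Instances: `exists_auxPrime_min_h31` (`IsMinPart P₀ V₀`), `exists_auxPrime_Q_h31`
(`IsQPart PQ α V`).
-/

set_option autoImplicit false

open Polynomial IsLocalRing CongruenceSubgroup
open scoped MatrixGroups

namespace Fermat.Agent.S59.TW.Aut.H31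

open Fermat.Agent.S59.Arch Fermat.Agent.S59.TW.H959 Fermat.Agent.S59.TW.H653
open Fermat.Agent.S59.TW.Aut

variable {p : ℕ} [Fact p.Prime]
  {𝒪 : Type} [CommRing 𝒪] [IsDomain 𝒪] [IsDiscreteValuationRing 𝒪]
  [IsAdicComplete (maximalIdeal 𝒪) 𝒪] [Finite (ResidueField 𝒪)]
  {ρbar : ResidualGaloisRep (ResidueField 𝒪)} {t : PType} {Smin : Finset ℕ}

/-- **The auxiliary prime**: a non-Eisenstein prime `ℓ ≡ 1 mod M m p` such that `T_ℓ - (ℓ + 1)`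
is bijective on the localisation `V`. -/
theorem exists_auxPrime_h31 (h : ResidualHyp p 𝒪 ρbar Smin) {Sig : Finset ℕ}
    [NeZero (wilesLevel p t Smin Sig)] (P : HeckePkg p 𝒪 ρbar t Smin Sig)
    {M : ℕ} (hM : M ≠ 0) {K : Subgroup SL(2, ℤ)} {hK : IsMid M K}
    {Tset Uset : Set (ℕ × 𝒪)} (hT : TsetOf P ⊆ Tset)
    {V : Submodule 𝒪 (Additive K →+ 𝒪)} (hV : IsLocPart hK Tset Uset V)
    (m : ℕ) (hm : 0 < m) (S' : Finset ℕ) :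
    ∃ (ℓ : ℕ) (_ : Fact ℓ.Prime) (c : 𝒪), (ℓ, c) ∈ TsetOf P ∧ ¬ ℓ ∣ M ∧ ℓ ∉ S' ∧
      ℓ ≡ 1 [MOD m] ∧ ℓ ≡ 1 [MOD M] ∧ ℓ ≡ 1 [MOD p] ∧ IsUnit (c - ((ℓ : 𝒪) + 1)) ∧
      (∀ y ∈ V, ∃ x ∈ V, TK M K ℓ x - ((ℓ : 𝒪) + 1) • x = y) ∧
      (∀ x ∈ V, TK M K ℓ x - ((ℓ : 𝒪) + 1) • x = 0 → x = 0) := by
  have : NeZero M := ⟨hM⟩
  obtain ⟨ℓ, c, hmem, hℓ, hℓS', hℓmM, hℓp, hu⟩ :=
    exists_nonEis_mem_TsetOf h P (m * M) (Nat.mul_pos hm (Nat.pos_of_ne_zero hM)) S'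
  have hℓm : ℓ ≡ 1 [MOD m] := hℓmM.of_mul_right M
  have hℓM : ℓ ≡ 1 [MOD M] := hℓmM.of_mul_left m
  have hndvd : ¬ ℓ ∣ M := by
    intro hdvd
    have h1 : ℓ ≡ 1 [MOD ℓ] := hℓM.of_dvd hdvd
    have h2 : ℓ ∣ 1 := by
      have h3 := (Nat.modEq_iff_dvd' (Nat.one_le_iff_ne_zero.mpr hℓ.ne_zero)).mp h1.symm
      have h4 : ℓ ∣ ℓ - 1 + 1 := by
        rw [Nat.sub_add_cancel hℓ.one_lt.le]
      exact (Nat.dvd_add_right h3).mp h4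
    exact hℓ.one_lt.ne' (Nat.dvd_one.mp h2)
  have : Fact ℓ.Prime := ⟨hℓ⟩
  obtain ⟨h1, h2⟩ := locPart_TK_sub_bij_h31 hV hndvd (hT hmem) hu
  exact ⟨ℓ, ‹_›, c, hmem, hndvd, hℓS', hℓm, hℓM, hℓp, hu, h1, h2⟩

/-- The auxiliary prime at the minimal level. -/
theorem exists_auxPrime_min_h31 (h : ResidualHyp p 𝒪 ρbar Smin)
    [NeZero (wilesLevel p t Smin Smin)] (P₀ : HeckePkg p 𝒪 ρbar t Smin Smin)
    {V₀ : Submodule 𝒪 (Additive (Gamma0 (wilesLevel p t Smin Smin)) →+ 𝒪)}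
    (hV : IsMinPart P₀ V₀) (m : ℕ) (hm : 0 < m) (S' : Finset ℕ) :
    ∃ (ℓ : ℕ) (_ : Fact ℓ.Prime) (c : 𝒪), (ℓ, c) ∈ TsetOf P₀ ∧
      ¬ ℓ ∣ wilesLevel p t Smin Smin ∧ ℓ ∉ S' ∧
      ℓ ≡ 1 [MOD m] ∧ ℓ ≡ 1 [MOD wilesLevel p t Smin Smin] ∧ ℓ ≡ 1 [MOD p] ∧
      IsUnit (c - ((ℓ : 𝒪) + 1)) ∧
      (∀ y ∈ V₀, ∃ x ∈ V₀, TK (wilesLevel p t Smin Smin) (Gamma0 (wilesLevel p t Smin Smin)) ℓ x -
        ((ℓ : 𝒪) + 1) • x = y) ∧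
      (∀ x ∈ V₀, TK (wilesLevel p t Smin Smin) (Gamma0 (wilesLevel p t Smin Smin)) ℓ x -
        ((ℓ : 𝒪) + 1) • x = 0 → x = 0) :=
  exists_auxPrime_h31 h P₀ (NeZero.ne _) (le_refl _) hV m hm S'

/-- The auxiliary prime at the level `Q`. -/
theorem exists_auxPrime_Q_h31 (h : ResidualHyp p 𝒪 ρbar Smin) {r : ℕ} {qv : Fin r → ℕ}
    [NeZero (wilesLevel p t Smin (Smin ∪ Finset.univ.image qv))]
    (PQ : HeckePkg p 𝒪 ρbar t Smin (Smin ∪ Finset.univ.image qv))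
    (hM : bLevel (wilesLevel p t Smin Smin) qv ≠ 0) {α : Fin r → 𝒪}
    {V : Submodule 𝒪 (XQ p t Smin qv 𝒪)} (hV : IsQPart PQ α V)
    (m : ℕ) (hm : 0 < m) (S' : Finset ℕ) :
    ∃ (ℓ : ℕ) (_ : Fact ℓ.Prime) (c : 𝒪), (ℓ, c) ∈ TsetOf PQ ∧
      ¬ ℓ ∣ bLevel (wilesLevel p t Smin Smin) qv ∧ ℓ ∉ S' ∧
      ℓ ≡ 1 [MOD m] ∧ ℓ ≡ 1 [MOD bLevel (wilesLevel p t Smin Smin) qv] ∧ ℓ ≡ 1 [MOD p] ∧
      IsUnit (c - ((ℓ : 𝒪) + 1)) ∧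
      (∀ y ∈ V, ∃ x ∈ V, TK (bLevel (wilesLevel p t Smin Smin) qv)
        (KQ p (wilesLevel p t Smin Smin) qv) ℓ x - ((ℓ : 𝒪) + 1) • x = y) ∧
      (∀ x ∈ V, TK (bLevel (wilesLevel p t Smin Smin) qv)
        (KQ p (wilesLevel p t Smin Smin) qv) ℓ x - ((ℓ : 𝒪) + 1) • x = 0 → x = 0) :=
  exists_auxPrime_h31 h PQ hM (le_refl _) hV m hm S'

end Fermat.Agent.S59.TW.Aut.H31
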